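import Fermat.Agent.Ribet.H997.DictDesc
import Fermat.Agent.A2.ModDefs

/-!
# S59 moonshot, cell (C) LO-SQ, leaf COND-PDIV (helper967, OFF-MAIN)

The dictionary `CondW → PDivSeries` needed by the producer of `RSurj1E`
(`S59/LoSqC/H987/LevelWall.lean`, helper987) before it can call the J-form of R-SURJ1
(`S59/LoSqC/H296/RedSurj.lean`, helper296).

`A` a valuation subring of `ℚ̄` over `q`, `q ∤ M`, `E` a level with `R_E = A ∩ E` a discrete
valuation ring, `V` the Gauss valuation ring of `F_{Mq,E}` (`A2.Mod.IsVinf`), `k` the residue field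
of `A`, `F_k = k(X₀(M))`.

* `ResPair967 A x s` : the `A`-integral quotient `x = U₁ / U₂` (`U₂` primitive) has residue
  `s = Ū₁ / Ū₂` (`s = 0` allowed); a partial ring homomorphism `x ↦ s`.
* `compRing967 hq hqM hA hdvr hV Q` : for a place `Q` of `F_k`, the composite valuation ring
  `W_Q = {y ∈ V | res y ∈ O_Q}`, a valuation subring of `F_{Mq,E}` with `W_Q ≤ V`, `R_E ⊆ W_Q`.
* **`pDivSeries_of_condW967`** : `b` a unit of `V` such that for every valuation subring
  `W ≤ V` containing `R_E` one has `b = v · h ^ m · (1 + 𝔪_V)` with `v ∈ Wˣ`, `h ∈ Vˣ`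
  (this is `H987.CondW R_E m V b`, written unfolded), `ρ` a reduction of `b`
  (`H997.IsRedSer`)  ⟹  `H884.PDivSeries m M ρ`.
* **`pDivSeries_of_condW_zero967`** : the same on the `0`-component `V₀ = V ∘ W'`
  (`W'` a Fricke involution), for `ρ` a reduction of `W' b`.
* `exists_isRedSer967` : reductions of nonzero elements exist.
-/

set_option autoImplicit false
set_option linter.unusedSectionVars false
set_option linter.unusedVariables false
set_option linter.style.haveILetI false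
set_option synthInstance.maxHeartbeats 400000
set_option maxHeartbeats 1600000

noncomputable section

namespace Fermat.Agent.S59.LoSqC.H967

open AlgebraicCurve ModularCurve HahnSeries
open Fermat.Agent.S24 Fermat.Agent.A2.H708 Fermat.Agent.A2.H528
open Fermat.Agent.A2 Fermat.Agent.A2.Mod Fermat.Agent.S18.H602
open Fermat.Agent.Ribet.H884 Fermat.Agent.Ribet.H997

/-! ## The residue relation on series over `ℚ̄` -/

section ResPair

variable {A : ValuationSubring Kbar}

/-- `x = U₁ / U₂` with `U₁, U₂` `A`-integral, `U₂` primitive, and `s = Ū₁ / Ū₂`. -/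
def ResPair967 (A : ValuationSubring Kbar) (x : LaurentSeries Kbar)
    (s : LaurentSeries (kA A)) : Prop :=
  ∃ U₁ U₂ : LaurentSeries A, red A U₂ ≠ 0 ∧ x * incl A U₂ = incl A U₁ ∧
    s * red A U₂ = red A U₁

theorem ResPair967.unique {x : LaurentSeries Kbar} {s s' : LaurentSeries (kA A)}
    (h : ResPair967 A x s) (h' : ResPair967 A x s') : s = s' := by
  obtain ⟨U₁, U₂, h₂, he, hs⟩ := h
  obtain ⟨U₁', U₂', h₂', he', hs'⟩ := h'
  have key : incl A (U₁ * U₂') = incl A (U₁' * U₂) := by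
    rw [map_mul, map_mul, ← he, ← he']
    ring
  have h1 := congrArg (red A) (incl_injective A key)
  rw [map_mul, map_mul, ← hs, ← hs'] at h1
  have h3 : (s - s') * (red A U₂ * red A U₂') = 0 := by linear_combination h1
  rcases mul_eq_zero.mp h3 with h | h
  · exact sub_eq_zero.mp h
  · exact absurd h (mul_ne_zero h₂ h₂')

theorem ResPair967.zero : ResPair967 A 0 0 :=
  ⟨0, 1, by rw [map_one]; exact one_ne_zero, by rw [zero_mul, map_zero],
    by rw [zero_mul, map_zero]⟩

theorem ResPair967.one : ResPair967 A 1 1 :=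
  ⟨1, 1, by rw [map_one]; exact one_ne_zero, by rw [one_mul], by rw [one_mul]⟩

theorem ResPair967.add {x x' : LaurentSeries Kbar} {s s' : LaurentSeries (kA A)}
    (h : ResPair967 A x s) (h' : ResPair967 A x' s') : ResPair967 A (x + x') (s + s') := by
  obtain ⟨U₁, U₂, h₂, he, hs⟩ := h
  obtain ⟨U₁', U₂', h₂', he', hs'⟩ := h'
  refine ⟨U₁ * U₂' + U₁' * U₂, U₂ * U₂', ?_, ?_, ?_⟩
  · rw [map_mul]; exact mul_ne_zero h₂ h₂'
  · rw [map_add, map_mul, map_mul, map_mul, ← he, ← he']
    ring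
  · rw [map_add, map_mul, map_mul, map_mul, ← hs, ← hs']
    ring

theorem ResPair967.mul {x x' : LaurentSeries Kbar} {s s' : LaurentSeries (kA A)}
    (h : ResPair967 A x s) (h' : ResPair967 A x' s') : ResPair967 A (x * x') (s * s') := by
  obtain ⟨U₁, U₂, h₂, he, hs⟩ := h
  obtain ⟨U₁', U₂', h₂', he', hs'⟩ := h'
  refine ⟨U₁ * U₁', U₂ * U₂', ?_, ?_, ?_⟩
  · rw [map_mul]; exact mul_ne_zero h₂ h₂'
  · rw [map_mul, map_mul, ← he, ← he']
    ring
  · rw [map_mul, map_mul, ← hs, ← hs']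
    ring

theorem ResPair967.neg {x : LaurentSeries Kbar} {s : LaurentSeries (kA A)}
    (h : ResPair967 A x s) : ResPair967 A (-x) (-s) := by
  obtain ⟨U₁, U₂, h₂, he, hs⟩ := h
  exact ⟨-U₁, U₂, h₂, by rw [map_neg, ← he, neg_mul], by rw [map_neg, ← hs, neg_mul]⟩

theorem ResPair967.pow {x : LaurentSeries Kbar} {s : LaurentSeries (kA A)}
    (h : ResPair967 A x s) (n : ℕ) : ResPair967 A (x ^ n) (s ^ n) := by
  induction n with
  | zero => rw [pow_zero, pow_zero]; exact ResPair967.one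
  | succ n ih => rw [pow_succ, pow_succ]; exact ih.mul h

theorem ResPair967.inv {x : LaurentSeries Kbar} {s : LaurentSeries (kA A)}
    (h : ResPair967 A x s) (hs0 : s ≠ 0) : ResPair967 A x⁻¹ s⁻¹ := by
  obtain ⟨U₁, U₂, h₂, he, hs⟩ := h
  have h₁ : red A U₁ ≠ 0 := by rw [← hs]; exact mul_ne_zero hs0 h₂
  have hU₁ : incl A U₁ ≠ 0 := incl_ne_zero A (ne_zero_of_red_ne_zero A h₁)
  have hx0 : x ≠ 0 := by
    rintro rfl
    rw [zero_mul] at he
    exact hU₁ he.symm
  refine ⟨U₂, U₁, h₁, ?_, ?_⟩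
  · rw [← he]
    field_simp
  · rw [← hs]
    field_simp

theorem ResPair967.const (a : A) :
    ResPair967 A (cst (a : Kbar)) (HahnSeries.C (IsLocalRing.residue A a)) := by
  refine ⟨cstA A a, 1, by rw [map_one]; exact one_ne_zero, ?_, ?_⟩
  · rw [map_one, mul_one, incl_cstA]
  · rw [map_one, mul_one, red_cstA]
    rfl

theorem ResPair967.isRedSer {x : LaurentSeries Kbar} {s : LaurentSeries (kA A)}
    (h : ResPair967 A x s) (hs0 : s ≠ 0) : IsRedSer A x s := by
  obtain ⟨U₁, U₂, h₂, he, hs⟩ := h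
  have h₁ : red A U₁ ≠ 0 := by rw [← hs]; exact mul_ne_zero hs0 h₂
  exact ⟨1, U₁, U₂, one_ne_zero, h₁, h₂, by rw [he, cst_one, one_mul], hs⟩

end ResPair

/-! ## Level `E` -/

section Level

variable {A : ValuationSubring Kbar} {E : IntermediateField ℚ Kbar} {N : ℕ}

/-- The series of `y ∈ F_{N,E}` over `ℚ̄`. -/
def xK967 (E : IntermediateField ℚ Kbar) (N : ℕ) (y : Mod.FE E N) : LaurentSeries Kbar :=
  coeffMap (algebraMap E Kbar) (y : LaurentSeries E)

theorem xK967_mul (y y' : Mod.FE E N) : xK967 E N (y * y') = xK967 E N y * xK967 E N y' := by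
  unfold xK967
  rw [IntermediateField.coe_mul, map_mul]

theorem xK967_add (y y' : Mod.FE E N) : xK967 E N (y + y') = xK967 E N y + xK967 E N y' := by
  unfold xK967
  rw [IntermediateField.coe_add, map_add]

theorem xK967_sub (y y' : Mod.FE E N) : xK967 E N (y - y') = xK967 E N y - xK967 E N y' := by
  unfold xK967
  have h : ((y - y' : Mod.FE E N) : LaurentSeries E) =
      (y : LaurentSeries E) - (y' : LaurentSeries E) := rfl
  rw [h, map_sub]

theorem xK967_neg (y : Mod.FE E N) : xK967 E N (-y) = -xK967 E N y := by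
  unfold xK967
  rw [IntermediateField.coe_neg, map_neg]

theorem xK967_one : xK967 E N 1 = 1 := by
  unfold xK967
  rw [IntermediateField.coe_one, map_one]

theorem xK967_zero : xK967 E N 0 = 0 := by
  unfold xK967
  rw [IntermediateField.coe_zero, map_zero]

theorem xK967_inv (y : Mod.FE E N) : xK967 E N y⁻¹ = (xK967 E N y)⁻¹ := by
  unfold xK967
  rw [IntermediateField.coe_inv, map_inv₀]

theorem xK967_pow (y : Mod.FE E N) (n : ℕ) : xK967 E N (y ^ n) = xK967 E N y ^ n := by
  unfold xK967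
  rw [IntermediateField.coe_pow, map_pow]

theorem xK967_algebraMap (e : E) :
    xK967 E N (algebraMap E (Mod.FE E N) e) = cst (algebraMap E Kbar e) := by
  unfold xK967
  exact coeffMap_algebraMap' (algebraMap E Kbar) e

theorem xK967_mem (y : Mod.FE E N) : xK967 E N y ∈ modularFunctionFieldBar N :=
  coeffMap_mem_laurentBaseChange (modularFunctionFieldFull N) _ y.2

theorem xK967_eq_zero_iff (y : Mod.FE E N) : xK967 E N y = 0 ↔ y = 0 := by
  constructor
  · intro h
    by_contra hy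
    have h1 : xK967 E N y * xK967 E N y⁻¹ = 1 := by
      rw [← xK967_mul, mul_inv_cancel₀ hy, xK967_one]
    rw [h, zero_mul] at h1
    exact zero_ne_one h1
  · rintro rfl
    exact xK967_zero

/-- A residue pair over `A` forces Gauss-integrality at the level `E`. -/
theorem mem_of_resPair967 {V : ValuationSubring (Mod.FE E N)} (hV : Mod.IsVinf A E N V)
    (hdvr : IsDiscreteValuationRing (Mod.RE A E)) {y : Mod.FE E N}
    {s : LaurentSeries (kA A)} (h : ResPair967 A (xK967 E N y) s) : y ∈ V := by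
  haveI := hdvr
  by_cases hy : y = 0
  · rw [hy]; exact V.zero_mem
  have hy0 : (y : LaurentSeries E) ≠ 0 := fun h0 => hy (Subtype.ext h0)
  obtain ⟨c, T₁, T₂, hc, t₁, t₂, hm₁, hm₂, hT⟩ :=
    exists_normal_form (A := Mod.RE A E) (intGen_full N)
      (attainsMax_of_isNoetherianRing (Mod.RE A E) (modularFunctionFieldFull N)) y.2 hy0
  have hTK : xK967 E N y * incl A (upA A E T₂) =
      cst (algebraMap E Kbar c) * incl A (upA A E T₁) := by
    have := congrArg (coeffMap (algebraMap E Kbar)) hT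
    rw [map_mul, map_mul, coeffMap_algebraMap', ← incl_upA, ← incl_upA] at this
    exact this
  obtain ⟨U₁, U₂, h₂, he, -⟩ := h
  have t₁A := red_upA_ne_zero E t₁
  have hcross : cst (algebraMap E Kbar c) * incl A (upA A E T₁ * U₂) =
      incl A (U₁ * upA A E T₂) := by
    rw [map_mul, map_mul, ← mul_assoc, ← hTK, ← he]
    ring
  have hp1 : red A (upA A E T₁ * U₂) ≠ 0 := by rw [map_mul]; exact mul_ne_zero t₁A h₂
  have hcA : algebraMap E Kbar c ∈ A := mem_of_cst_mul_prim A hp1 hcross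
  have hcR : c ∈ Mod.RE A E := hcA
  exact (hV y).mpr ((isGaussInt_iff_of_normal_form t₁ t₂ hm₂ hT).mpr hcR)

/-- Elements of `V` have a residue. -/
theorem exists_resPair967 {V : ValuationSubring (Mod.FE E N)} (hV : Mod.IsVinf A E N V)
    {y : Mod.FE E N} (hy : y ∈ V) : ∃ s : LaurentSeries (kA A), ResPair967 A (xK967 E N y) s := by
  obtain ⟨U₁, U₂, h0, -, he⟩ := (hV y).mp hy
  have h₂ := red_upA_ne_zero E h0
  refine ⟨red A (upA A E U₁) * (red A (upA A E U₂))⁻¹, upA A E U₁, upA A E U₂, h₂, ?_, ?_⟩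
  · have := congrArg (coeffMap (algebraMap E Kbar)) he
    rw [map_mul, ← incl_upA, ← incl_upA] at this
    exact this
  · rw [mul_assoc, inv_mul_cancel₀ h₂, mul_one]

/-- The residue of a non-unit is `0`. -/
theorem resPair_eq_zero967 {V : ValuationSubring (Mod.FE E N)} (hV : Mod.IsVinf A E N V)
    (hdvr : IsDiscreteValuationRing (Mod.RE A E)) {y : Mod.FE E N}
    (hy : V.valuation y < 1) {s : LaurentSeries (kA A)} (h : ResPair967 A (xK967 E N y) s) :
    s = 0 := by
  by_contra hs0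
  have h1 : ResPair967 A (xK967 E N y⁻¹) s⁻¹ := by
    rw [xK967_inv]
    exact h.inv hs0
  have h2 : y⁻¹ ∈ V := mem_of_resPair967 hV hdvr h1
  have h3 : V.valuation y⁻¹ ≤ 1 := (ValuationSubring.valuation_le_one_iff V _).2 h2
  have hy0 : y ≠ 0 := by
    rintro rfl
    rw [xK967_zero] at h
    exact hs0 (h.unique ResPair967.zero)
  have hv0 : V.valuation y ≠ 0 := (Valuation.ne_zero_iff _).mpr hy0
  rw [map_inv₀, inv_le_one₀ (zero_lt_iff.mpr hv0)] at h3
  exact absurd hy (not_lt.mpr h3)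

/-- The residue of a unit is nonzero. -/
theorem resPair_ne_zero967 {V : ValuationSubring (Mod.FE E N)} (hV : Mod.IsVinf A E N V)
    {y : Mod.FE E N} (hy : V.valuation y = 1) {s : LaurentSeries (kA A)}
    (h : ResPair967 A (xK967 E N y) s) : s ≠ 0 := by
  have hy0 : y ≠ 0 := by
    rintro rfl
    rw [map_zero] at hy
    exact zero_ne_one hy
  have hyi : y⁻¹ ∈ V := by
    rw [← ValuationSubring.valuation_le_one_iff, map_inv₀, hy, inv_one]
  obtain ⟨s', hs'⟩ := exists_resPair967 hV hyi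
  have h1 : ResPair967 A 1 (s * s') := by
    have := h.mul hs'
    rwa [← xK967_mul, mul_inv_cancel₀ hy0, xK967_one] at this
  have h2 : s * s' = 1 := h1.unique ResPair967.one
  intro h0
  rw [h0, zero_mul] at h2
  exact zero_ne_one h2

end Level

/-! ## The composite valuation ring of a place of `k(X₀(M))` -/

section Comp

variable {A : ValuationSubring Kbar} {E : IntermediateField ℚ Kbar} {M q : ℕ} [NeZero M]
  [NeZero q]

/-- Residues of functions of level `M q` lie in `F_k = k(X₀(M))`. -/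
theorem resPair_mem_fullC967 (hq : q.Prime) (hqM : ¬ q ∣ M) (hA : A.LiesOverPrime q)
    {x : LaurentSeries Kbar} (hx : x ∈ modularFunctionFieldBar (M * q))
    {s : LaurentSeries (kA A)} (h : ResPair967 A x s) :
    s ∈ modularFunctionFieldFullC (kA A) M := by
  by_cases hs0 : s = 0
  · rw [hs0]; exact zero_mem _
  · exact isRedSer_mem_of_level_mul hq hqM hA hx (h.isRedSer hs0)

/-- The carrier of the composite ring `W_Q = {y ∈ V | res y ∈ O_Q}`. -/
def compSet967 (A : ValuationSubring Kbar) (E : IntermediateField ℚ Kbar) (M q : ℕ)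
    (Q : Place (kA A) (modularFunctionFieldFullC (kA A) M)) : Set (Mod.FE E (M * q)) :=
  {y | ∃ h : modularFunctionFieldFullC (kA A) M,
    ResPair967 A (xK967 E (M * q) y) (h : LaurentSeries (kA A)) ∧ h ∈ Q.toValuationSubring}

theorem compSet967_zero (Q : Place (kA A) (modularFunctionFieldFullC (kA A) M)) :
    (0 : Mod.FE E (M * q)) ∈ compSet967 A E M q Q :=
  ⟨0, by rw [xK967_zero]; exact ResPair967.zero, Q.toValuationSubring.zero_mem⟩

theorem compSet967_one (Q : Place (kA A) (modularFunctionFieldFullC (kA A) M)) :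
    (1 : Mod.FE E (M * q)) ∈ compSet967 A E M q Q :=
  ⟨1, by rw [xK967_one]; exact ResPair967.one, Q.toValuationSubring.one_mem⟩

theorem compSet967_mem_or_inv (hq : q.Prime) (hqM : ¬ q ∣ M) (hA : A.LiesOverPrime q)
    {V : ValuationSubring (Mod.FE E (M * q))} (hV : Mod.IsVinf A E (M * q) V)
    (Q : Place (kA A) (modularFunctionFieldFullC (kA A) M)) (y : Mod.FE E (M * q)) :
    y ∈ compSet967 A E M q Q ∨ y⁻¹ ∈ compSet967 A E M q Q := by
  have key : ∀ z : Mod.FE E (M * q), z ∈ V →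
      (z ∈ compSet967 A E M q Q ∨ z⁻¹ ∈ compSet967 A E M q Q) := by
    intro z hzV
    obtain ⟨s, hs⟩ := exists_resPair967 hV hzV
    have hmem := resPair_mem_fullC967 hq hqM hA (xK967_mem z) hs
    by_cases hs0 : s = 0
    · left
      refine ⟨0, ?_, Q.toValuationSubring.zero_mem⟩
      rw [hs0] at hs
      exact hs
    · rcases Q.toValuationSubring.mem_or_inv_mem ⟨s, hmem⟩ with h1 | h1
      · left
        exact ⟨⟨s, hmem⟩, hs, h1⟩
      · right
        refine ⟨(⟨s, hmem⟩ : modularFunctionFieldFullC (kA A) M)⁻¹, ?_, h1⟩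
        rw [xK967_inv, IntermediateField.coe_inv]
        exact hs.inv hs0
  rcases V.mem_or_inv_mem y with h | h
  · exact key y h
  · rcases key y⁻¹ h with h1 | h1
    · right; exact h1
    · left; rwa [inv_inv] at h1

/-- **The composite valuation ring** `W_Q = {y ∈ V | res y ∈ O_Q}`. -/
def compRing967 (hq : q.Prime) (hqM : ¬ q ∣ M) (hA : A.LiesOverPrime q)
    {V : ValuationSubring (Mod.FE E (M * q))} (hV : Mod.IsVinf A E (M * q) V)
    (Q : Place (kA A) (modularFunctionFieldFullC (kA A) M)) :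
    ValuationSubring (Mod.FE E (M * q)) where
  carrier := compSet967 A E M q Q
  mul_mem' := by
    rintro y y' ⟨h, hr, hQ⟩ ⟨h', hr', hQ'⟩
    refine ⟨h * h', ?_, Q.toValuationSubring.mul_mem _ _ hQ hQ'⟩
    rw [xK967_mul, IntermediateField.coe_mul]
    exact hr.mul hr'
  one_mem' := compSet967_one Q
  add_mem' := by
    rintro y y' ⟨h, hr, hQ⟩ ⟨h', hr', hQ'⟩
    refine ⟨h + h', ?_, Q.toValuationSubring.add_mem _ _ hQ hQ'⟩
    rw [xK967_add, IntermediateField.coe_add]
    exact hr.add hr'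
  zero_mem' := compSet967_zero Q
  neg_mem' := by
    rintro y ⟨h, hr, hQ⟩
    refine ⟨-h, ?_, Q.toValuationSubring.neg_mem _ hQ⟩
    rw [xK967_neg, IntermediateField.coe_neg]
    exact hr.neg
  mem_or_inv_mem' := compSet967_mem_or_inv hq hqM hA hV Q

theorem mem_compRing967_iff (hq : q.Prime) (hqM : ¬ q ∣ M) (hA : A.LiesOverPrime q)
    {V : ValuationSubring (Mod.FE E (M * q))} (hV : Mod.IsVinf A E (M * q) V)
    (Q : Place (kA A) (modularFunctionFieldFullC (kA A) M)) (y : Mod.FE E (M * q)) :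
    y ∈ compRing967 hq hqM hA hV Q ↔ y ∈ compSet967 A E M q Q := Iff.rfl

theorem compRing967_le (hq : q.Prime) (hqM : ¬ q ∣ M) (hA : A.LiesOverPrime q)
    (hdvr : IsDiscreteValuationRing (Mod.RE A E))
    {V : ValuationSubring (Mod.FE E (M * q))} (hV : Mod.IsVinf A E (M * q) V)
    (Q : Place (kA A) (modularFunctionFieldFullC (kA A) M)) :
    compRing967 hq hqM hA hV Q ≤ V := by
  rintro y ⟨h, hr, -⟩
  exact mem_of_resPair967 hV hdvr hr

/-- Constants of `k` are units of `O_Q`. -/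
theorem constFk967_mem (Q : Place (kA A) (modularFunctionFieldFullC (kA A) M)) (c : kA A) :
    (⟨HahnSeries.C c, C_mem_fullC _ M c⟩ : modularFunctionFieldFullC (kA A) M) ∈
      Q.toValuationSubring := by
  have h : (⟨HahnSeries.C c, C_mem_fullC _ M c⟩ : modularFunctionFieldFullC (kA A) M) =
      algebraMap (kA A) (modularFunctionFieldFullC (kA A) M) c := by
    apply Subtype.ext
    show HahnSeries.C c = algebraMap (kA A) (LaurentSeries (kA A)) c
    rw [algebraMap_laurentSeries_eq_single]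
    rfl
  rw [h]
  exact Q.algebraMap_mem' c

theorem algebraMap_mem_compRing967 (hq : q.Prime) (hqM : ¬ q ∣ M) (hA : A.LiesOverPrime q)
    {V : ValuationSubring (Mod.FE E (M * q))} (hV : Mod.IsVinf A E (M * q) V)
    (Q : Place (kA A) (modularFunctionFieldFullC (kA A) M)) (r : Mod.RE A E) :
    algebraMap E (Mod.FE E (M * q)) (r : E) ∈ compRing967 hq hqM hA hV Q := by
  refine ⟨⟨HahnSeries.C (IsLocalRing.residue A (toA' A E r)), C_mem_fullC _ M _⟩, ?_,
    constFk967_mem Q _⟩
  rw [xK967_algebraMap]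
  exact ResPair967.const (toA' A E r)

/-- The order of a unit of `O_Q` vanishes. -/
theorem ord_eq_zero_of_mul_eq_one967 {K F : Type*} [Field K] [Field F] [Algebra K F]
    (Q : Place K F) {g g' : F} (hg : g ∈ Q.toValuationSubring)
    (hg' : g' ∈ Q.toValuationSubring) (h : g * g' = 1) : Q.ord g = 0 := by
  have hu : IsUnit (⟨g, hg⟩ : Q.toValuationSubring) :=
    isUnit_iff_exists_inv.mpr ⟨⟨g', hg'⟩, Subtype.ext h⟩
  obtain ⟨u, hu⟩ := hu
  have := Q.ord_coe_unit u
  rwa [hu] at this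

/-- Reductions of nonzero elements exist (level `E`, Gauss normal form). -/
theorem exists_isRedSer967 {N : ℕ} (hdvr : IsDiscreteValuationRing (Mod.RE A E))
    {y : Mod.FE E N} (hy : y ≠ 0) :
    ∃ ρ : LaurentSeries (kA A), IsRedSer A (xK967 E N y) ρ := by
  haveI := hdvr
  have hy0 : (y : LaurentSeries E) ≠ 0 := fun h0 => hy (Subtype.ext h0)
  obtain ⟨c, T₁, T₂, hc, t₁, t₂, hm₁, hm₂, hT⟩ :=
    exists_normal_form (A := Mod.RE A E) (intGen_full N)
      (attainsMax_of_isNoetherianRing (Mod.RE A E) (modularFunctionFieldFull N)) y.2 hy0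
  have hTK : xK967 E N y * incl A (upA A E T₂) =
      cst (algebraMap E Kbar c) * incl A (upA A E T₁) := by
    have := congrArg (coeffMap (algebraMap E Kbar)) hT
    rw [map_mul, map_mul, coeffMap_algebraMap', ← incl_upA, ← incl_upA] at this
    exact this
  have t₁A := red_upA_ne_zero E t₁
  have t₂A := red_upA_ne_zero E t₂
  have hcK : algebraMap E Kbar c ≠ 0 := by
    rwa [Ne, map_eq_zero_iff _ (algebraMap E Kbar).injective]
  exact ⟨red A (upA A E T₁) * (red A (upA A E T₂))⁻¹, algebraMap E Kbar c, upA A E T₁,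
    upA A E T₂, hcK, t₁A, t₂A, hTK, by rw [mul_assoc, inv_mul_cancel₀ t₂A, mul_one]⟩

/-- **COND-PDIV, `∞`-component.**  If for every valuation subring `W ≤ V` containing `R_E` the
element `b` is `v · h ^ m · (1 + 𝔪_V)` with `v ∈ Wˣ`, `h ∈ Vˣ` (`= H987.CondW R_E m V b`,
unfolded), then every reduction `ρ` of `b` has `m ∣ ord_Q ρ` at every place `Q` of `k(X₀(M))`. -/
theorem pDivSeries_of_condW967 (hq : q.Prime) (hqM : ¬ q ∣ M) (hA : A.LiesOverPrime q)
    (hdvr : IsDiscreteValuationRing (Mod.RE A E))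
    {V : ValuationSubring (Mod.FE E (M * q))} (hV : Mod.IsVinf A E (M * q) V)
    {m : ℕ} {b : Mod.FE E (M * q)}
    (hc : ∀ W : ValuationSubring (Mod.FE E (M * q)), W ≤ V →
      (∀ r : Mod.RE A E, algebraMap (Mod.RE A E) (Mod.FE E (M * q)) r ∈ W) →
      ∃ h v : Mod.FE E (M * q), V.valuation h = 1 ∧ v ∈ W ∧ v⁻¹ ∈ W ∧
        V.valuation (b / (v * h ^ m) - 1) < 1)
    {ρ : LaurentSeries (kA A)} (hρ : IsRedSer A (xK967 E (M * q) b) ρ) :
    PDivSeries m M ρ := by
  have hρmem : ρ ∈ modularFunctionFieldFullC (kA A) M :=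
    isRedSer_mem_of_level_mul hq hqM hA (xK967_mem b) hρ
  have hρ0 : ρ ≠ 0 := by
    obtain ⟨c, U₁, U₂, -, h₁, h₂, -, hr⟩ := hρ
    intro h0
    rw [h0, zero_mul] at hr
    exact h₁ hr.symm
  refine ⟨⟨ρ, hρmem⟩, rfl, fun h0 => hρ0 (congrArg Subtype.val h0), fun Q => ?_⟩
  obtain ⟨h0, v, hh0, hvW, hviW, hz⟩ := hc (compRing967 hq hqM hA hV Q)
    (compRing967_le hq hqM hA hdvr hV Q) (fun r => algebraMap_mem_compRing967 hq hqM hA hV Q r)
  -- `v ≠ 0`, `h0 ≠ 0`
  have hv0 : v ≠ 0 := by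
    rintro rfl
    rw [zero_mul, div_zero, zero_sub, Valuation.map_neg, map_one] at hz
    exact lt_irrefl _ hz
  have hh00 : h0 ≠ 0 := by
    rintro rfl
    rw [map_zero] at hh0
    exact zero_ne_one hh0
  -- the residue of `v` is a unit of `O_Q`
  obtain ⟨gv, hgv, hgvQ⟩ := hvW
  obtain ⟨gv', hgv', hgvQ'⟩ := hviW
  have hprod : (gv : LaurentSeries (kA A)) * (gv' : LaurentSeries (kA A)) = 1 := by
    have h1 := hgv.mul hgv'
    rw [← xK967_mul, mul_inv_cancel₀ hv0, xK967_one] at h1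
    exact h1.unique ResPair967.one
  have hprod' : gv * gv' = 1 := Subtype.ext hprod
  have hordv : Q.ord gv = 0 := ord_eq_zero_of_mul_eq_one967 Q hgvQ hgvQ' hprod'
  have hgv0 : gv ≠ 0 := by
    rintro rfl
    rw [zero_mul] at hprod'
    exact zero_ne_one hprod'
  -- the residue of `h0`
  have hh0V : h0 ∈ V := by
    rw [← ValuationSubring.valuation_le_one_iff, hh0]
  obtain ⟨s0, hs0⟩ := exists_resPair967 hV hh0V
  have hs0mem := resPair_mem_fullC967 hq hqM hA (xK967_mem h0) hs0
  have hs00 : s0 ≠ 0 := resPair_ne_zero967 hV hh0 hs0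
  -- the residue of `z = b / (v h0 ^ m) - 1` is `0`
  have hzV : b / (v * h0 ^ m) - 1 ∈ V := by
    rw [← ValuationSubring.valuation_le_one_iff]
    exact hz.le
  obtain ⟨sz, hsz⟩ := exists_resPair967 hV hzV
  have hsz0 : sz = 0 := resPair_eq_zero967 hV hdvr hz hsz
  rw [hsz0] at hsz
  -- `b = v · h0 ^ m · (1 + z)`
  have hvh : v * h0 ^ m ≠ 0 := mul_ne_zero hv0 (pow_ne_zero _ hh00)
  have hb : b = v * h0 ^ m * (1 + (b / (v * h0 ^ m) - 1)) := by
    field_simp
    ring
  have hRb : ResPair967 A (xK967 E (M * q) b) ((gv : LaurentSeries (kA A)) * s0 ^ m) := by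
    have h1 := (hgv.mul (hs0.pow m)).mul (ResPair967.one.add hsz)
    rw [add_zero, mul_one, ← xK967_one (E := E) (N := M * q), ← xK967_add, ← xK967_pow,
      ← xK967_mul, ← xK967_mul, ← hb] at h1
    exact h1
  have hne : (gv : LaurentSeries (kA A)) * s0 ^ m ≠ 0 :=
    mul_ne_zero (fun h => hgv0 (Subtype.ext h)) (pow_ne_zero _ hs00)
  obtain ⟨u, hu0, hu⟩ := (hRb.isRedSer hne).unique hρ
  -- the equation in `F_k`
  set cu : modularFunctionFieldFullC (kA A) M := ⟨HahnSeries.C u, C_mem_fullC _ M u⟩ with hcu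
  set g0 : modularFunctionFieldFullC (kA A) M := ⟨s0, hs0mem⟩ with hg0
  have hel : (⟨ρ, hρmem⟩ : modularFunctionFieldFullC (kA A) M) = cu * (gv * g0 ^ m) := by
    apply Subtype.ext
    show ρ = HahnSeries.C u * ((gv : LaurentSeries (kA A)) * s0 ^ m)
    exact hu
  have hcu0 : cu ≠ 0 := by
    intro h
    have h1 : HahnSeries.C u = 0 := congrArg Subtype.val h
    rw [map_eq_zero] at h1
    exact hu0 h1
  have hg00 : g0 ≠ 0 := fun h => hs00 (congrArg Subtype.val h)
  have hcui : cu * (⟨HahnSeries.C u⁻¹, C_mem_fullC _ M u⁻¹⟩ :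
      modularFunctionFieldFullC (kA A) M) = 1 := by
    apply Subtype.ext
    show HahnSeries.C u * HahnSeries.C u⁻¹ = 1
    rw [← map_mul, mul_inv_cancel₀ hu0, map_one]
  have hordc : Q.ord cu = 0 :=
    ord_eq_zero_of_mul_eq_one967 Q (constFk967_mem Q u) (constFk967_mem Q u⁻¹) hcui
  have hpow : Q.ord (g0 ^ m) = (m : ℤ) * Q.ord g0 := by
    rw [← zpow_natCast, Q.ord_zpow]
  rw [hel, Q.ord_mul hcu0 (mul_ne_zero hgv0 (pow_ne_zero _ hg00)),
    Q.ord_mul hgv0 (pow_ne_zero _ hg00), hordc, hordv, hpow, zero_add, zero_add]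
  exact dvd_mul_right _ _

/-! ## The `0`-component -/

/-- Non-units of a pulled-back valuation ring. -/
theorem val_comap_lt_one_iff967 {F : Type*} [Field F] (V : ValuationSubring F) (W : F →+* F)
    (z : F) : (V.comap W).valuation z < 1 ↔ V.valuation (W z) < 1 := by
  rw [← ValuationSubring.mem_nonunits_iff, ← ValuationSubring.mem_nonunits_iff,
    ValuationSubring.mem_nonunits_iff_or, ValuationSubring.mem_nonunits_iff_or,
    ValuationSubring.mem_comap, map_inv₀, map_eq_zero]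

/-- **COND-PDIV, `0`-component** (`V₀ = V ∘ W'`, `W'` a Fricke involution): the same for the
reductions of `W' b`, i.e. (by `H997.iotaN_fricke`) for the reductions of `b` on the
`0`-component. -/
theorem pDivSeries_of_condW_zero967 (hq : q.Prime) (hqM : ¬ q ∣ M) (hA : A.LiesOverPrime q)
    (hdvr : IsDiscreteValuationRing (Mod.RE A E))
    {V V₀ : ValuationSubring (Mod.FE E (M * q))} (hV : Mod.IsVinf A E (M * q) V)
    (W' : Mod.FE E (M * q) ≃ₐ[E] Mod.FE E (M * q))
    (hV₀ : V₀ = V.comap (W' : Mod.FE E (M * q) →+* Mod.FE E (M * q)))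
    {m : ℕ} {b : Mod.FE E (M * q)}
    (hc : ∀ W : ValuationSubring (Mod.FE E (M * q)), W ≤ V₀ →
      (∀ r : Mod.RE A E, algebraMap (Mod.RE A E) (Mod.FE E (M * q)) r ∈ W) →
      ∃ h v : Mod.FE E (M * q), V₀.valuation h = 1 ∧ v ∈ W ∧ v⁻¹ ∈ W ∧
        V₀.valuation (b / (v * h ^ m) - 1) < 1)
    {ρ : LaurentSeries (kA A)} (hρ : IsRedSer A (xK967 E (M * q) (W' b)) ρ) :
    PDivSeries m M ρ := by
  subst hV₀
  refine pDivSeries_of_condW967 hq hqM hA hdvr hV (b := W' b) ?_ hρ
  intro W₁ hW₁ hR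
  obtain ⟨h, v, hh, hv, hvi, hz⟩ :=
    hc (W₁.comap (W' : Mod.FE E (M * q) →+* Mod.FE E (M * q)))
      (fun y hy => hW₁ hy)
      (fun r => by
        rw [ValuationSubring.mem_comap]
        have e : (W' : Mod.FE E (M * q) →+* Mod.FE E (M * q))
            (algebraMap (Mod.RE A E) (Mod.FE E (M * q)) r) =
            algebraMap (Mod.RE A E) (Mod.FE E (M * q)) r := W'.commutes (r : E)
        rw [e]
        exact hR r)
  refine ⟨W' h, W' v, ?_, hv, ?_, ?_⟩
  · exact (val_comap_eq_one_iff V _ h).1 hh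
  · have : (W' v)⁻¹ = (W' : Mod.FE E (M * q) →+* Mod.FE E (M * q)) v⁻¹ := (map_inv₀ _ _).symm
    rw [this]
    exact hvi
  · have h1 := (val_comap_lt_one_iff967 V _ _).1 hz
    have e : (W' : Mod.FE E (M * q) →+* Mod.FE E (M * q)) (b / (v * h ^ m) - 1) =
        W' b / (W' v * W' h ^ m) - 1 := by
      rw [map_sub, map_div₀, map_mul, map_pow, map_one]
      rfl
    rw [e] at h1
    exact h1

end Comp

/-! ## Bridges to `IsRedInf` / `IsRedZero` -/

section Bridge

variable {A : ValuationSubring Kbar} {E : IntermediateField ℚ Kbar} {N : ℕ} [NeZero N]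

theorem coe_iotaN967 (y : Mod.FE E N) :
    ((Mod.H553.iotaN E N y : modularFunctionFieldBar N) : LaurentSeries Kbar) =
      xK967 E N y := rfl

/-- Reductions on the `∞`-component of `ι y` = reductions of the series of `y`. -/
theorem isRedInf_iotaN_iff967 (y : Mod.FE E N) (ρ : LaurentSeries (kA A)) :
    IsRedInf N A (Mod.H553.iotaN E N y) ρ ↔ IsRedSer A (xK967 E N y) ρ := Iff.rfl

/-- Reductions on the `0`-component of `ι y` = reductions of the series of `W' y`. -/
theorem isRedZero_iotaN_iff967 {W' : Mod.FE E N ≃ₐ[E] Mod.FE E N} (hW' : Mod.IsFricke E N W')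
    (y : Mod.FE E N) (ρ : LaurentSeries (kA A)) :
    IsRedZero N A (Mod.H553.iotaN E N y) ρ ↔ IsRedSer A (xK967 E N (W' y)) ρ := by
  unfold IsRedZero
  rw [← iotaN_fricke hW' y]
  exact Iff.rfl

end Bridge

end Fermat.Agent.S59.LoSqC.H967

end
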